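/-
S41 / C4 [CSP], file F2 (number theory of step (A3) of helper11's proof #3042), integer core
(helper46).  Pure `ℕ` statements, Mathlib only.

* `e0 q M = q ^ φ(M)`, `Lpart q M` = the `M`-part of `e0 ^ 2 - 1`;
* `Lpart_spec`: `M ∣ L`, every prime factor of `L` divides `M`, `e0 ^ 2 - 1 = L * R0` with `R0`
  prime to `M`;
* `exists_prime_c0`: Dirichlet + CRT: a prime `c0 > B` in a given unit class mod `a0`
  with `M ^ 2 ∣ c0 + 1` (which forces `(c0 - 1) / 2` to be prime to `M`);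
* `exists_eta`: for such a prime `c0 > e0 ^ 2` the unit `η = q ^ k` (`k = φ(M) * ord_{c0}(e0 ^ 2)`)
  satisfies `η ≡ 1 mod M` and `η ^ 2 = 1 + L * c0 * R` with `R` prime to `M`.
-/
import Mathlib

set_option autoImplicit false

namespace Fermat.Agent.S41.CSPNum46

/-- `e0 = q ^ φ(M)` -/
def e0 (q M : ℕ) : ℕ := q ^ Nat.totient M

/-- the `M`-part of `e0 ^ 2 - 1`. -/
def Lpart (q M : ℕ) : ℕ :=
  ∏ ℓ ∈ M.primeFactors, ℓ ^ ((e0 q M ^ 2 - 1).factorization ℓ)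

theorem e0_modEq_one {q M : ℕ} (hMq : M.Coprime q) : e0 q M ≡ 1 [MOD M] :=
  Nat.ModEq.pow_totient hMq.symm

theorem two_le_e0 {q M : ℕ} (hq : q.Prime) (hM : 0 < M) : 2 ≤ e0 q M := by
  have h1 : 0 < Nat.totient M := Nat.totient_pos.2 hM
  calc 2 ≤ q := hq.two_le
    _ = q ^ 1 := (pow_one q).symm
    _ ≤ q ^ Nat.totient M := Nat.pow_le_pow_right hq.pos h1

theorem e0_sq_sub_one_pos {q M : ℕ} (hq : q.Prime) (hM : 0 < M) : 0 < e0 q M ^ 2 - 1 := by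
  have := two_le_e0 hq hM
  have : 4 ≤ e0 q M ^ 2 := by nlinarith
  omega

theorem dvd_e0_sq_sub_one {q M : ℕ} (hq : q.Prime) (hM : 0 < M) (hMq : M.Coprime q) :
    M ∣ e0 q M ^ 2 - 1 := by
  have h := (e0_modEq_one hMq).pow 2
  rw [one_pow] at h
  have h1 : 1 ≤ e0 q M ^ 2 := by
    have := e0_sq_sub_one_pos hq hM
    omega
  exact (Nat.modEq_iff_dvd' h1).1 h.symm

/-- Lemma A: the level data. -/
theorem Lpart_spec {q M : ℕ} (hq : q.Prime) (hM : 0 < M) (hMq : M.Coprime q) :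
    M ∣ Lpart q M ∧ (∀ ℓ : ℕ, ℓ.Prime → ℓ ∣ Lpart q M → ℓ ∣ M) ∧
      ∃ R0 : ℕ, e0 q M ^ 2 - 1 = Lpart q M * R0 ∧ R0.Coprime M := by
  set n := e0 q M ^ 2 - 1 with hn
  have hn0 : n ≠ 0 := (e0_sq_sub_one_pos hq hM).ne'
  have hMn : M ∣ n := dvd_e0_sq_sub_one hq hM hMq
  have hM0 : M ≠ 0 := hM.ne'
  refine ⟨?_, ?_, ?_⟩
  · -- M ∣ Lpart
    conv_lhs => rw [← Nat.prod_factorization_pow_eq_self hM0]
    rw [Finsupp.prod, Nat.support_factorization]
    unfold Lpart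
    apply Finset.prod_dvd_prod_of_dvd
    intro ℓ hℓ
    apply pow_dvd_pow
    exact (Nat.factorization_le_iff_dvd hM0 hn0).2 hMn ℓ
  · intro ℓ hℓ hdvd
    unfold Lpart at hdvd
    rw [Prime.dvd_finsetProd_iff hℓ.prime] at hdvd
    obtain ⟨r, hr, hdvd⟩ := hdvd
    have := hℓ.prime.dvd_of_dvd_pow hdvd
    have hr' := Nat.prime_of_mem_primeFactors hr
    rw [(Nat.prime_dvd_prime_iff_eq hℓ hr').1 this]
    exact Nat.dvd_of_mem_primeFactors hr
  · refine ⟨∏ ℓ ∈ n.primeFactors \ M.primeFactors, ℓ ^ (n.factorization ℓ), ?_, ?_⟩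
    · have hsub : M.primeFactors ⊆ n.primeFactors := Nat.primeFactors_mono hMn hn0
      conv_lhs => rw [← Nat.prod_factorization_pow_eq_self hn0]
      rw [Finsupp.prod, Nat.support_factorization]
      unfold Lpart
      rw [mul_comm]
      exact (Finset.prod_sdiff hsub).symm
    · apply Nat.Coprime.prod_left
      intro ℓ hℓ
      rw [Finset.mem_sdiff] at hℓ
      have hℓp := Nat.prime_of_mem_primeFactors hℓ.1
      apply Nat.Coprime.pow_left
      rw [Nat.Prime.coprime_iff_not_dvd hℓp]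
      intro hd
      exact hℓ.2 (Nat.mem_primeFactors.2 ⟨hℓp, hd, hM0⟩)

/-- Lemma B: Dirichlet + CRT. -/
theorem exists_prime_c0 {M a0 κ : ℕ} (hM : 0 < M) (ha0 : 0 < a0) (ha0M : a0.Coprime M)
    (hκ : κ.Coprime a0) (B : ℕ) :
    ∃ c0 : ℕ, c0.Prime ∧ B < c0 ∧ c0 ≡ κ [MOD a0] ∧ M ^ 2 ∣ c0 + 1 := by
  have hco : a0.Coprime (M ^ 2) := ha0M.pow_right 2
  have hM2 : 0 < M ^ 2 := pow_pos hM 2
  obtain ⟨k, hk1, hk2⟩ := Nat.chineseRemainder hco κ (M ^ 2 - 1)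
  have hkco : k.Coprime (a0 * M ^ 2) := by
    apply Nat.Coprime.mul_right
    · rw [Nat.Coprime, hk1.gcd_eq]; exact hκ
    · rw [Nat.Coprime, hk2.gcd_eq]
      have : (M ^ 2 - 1).Coprime (M ^ 2 - 1 + 1) := by simp
      rwa [Nat.sub_add_cancel hM2] at this
  obtain ⟨c0, hgt, hp, hmod⟩ :=
    Nat.forall_exists_prime_gt_and_modEq B (Nat.mul_ne_zero ha0.ne' hM2.ne') hkco
  refine ⟨c0, hp, hgt, ?_, ?_⟩
  · exact (hmod.of_mul_right _).trans hk1
  · have h2 : c0 ≡ M ^ 2 - 1 [MOD M ^ 2] := (hmod.of_mul_left _).trans hk2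
    have h3 : c0 + 1 ≡ M ^ 2 - 1 + 1 [MOD M ^ 2] := h2.add_right 1
    rw [Nat.sub_add_cancel hM2] at h3
    exact (Nat.modEq_zero_iff_dvd.1 (h3.trans (by simp [Nat.ModEq])))

/-- Lemma C: the unit `η = q ^ k` attached to the prime `c0`. -/
theorem exists_eta {q M c0 : ℕ} (hq : q.Prime) (hM : 0 < M) (hMq : M.Coprime q)
    (hc0 : c0.Prime) (hbig : e0 q M ^ 2 < c0) (hc0M : M ^ 2 ∣ c0 + 1) :
    ∃ k R : ℕ, q ^ k ≡ 1 [MOD M] ∧ (q ^ k) ^ 2 = 1 + Lpart q M * c0 * R ∧ R.Coprime M := by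
  have : Fact c0.Prime := ⟨hc0⟩
  obtain ⟨-, -, R0, hR0, hR0M⟩ := Lpart_spec hq hM hMq
  set e := e0 q M with he
  set L := Lpart q M with hL
  have he2 : 2 ≤ e := two_le_e0 hq hM
  have hx0 : 0 < e ^ 2 - 1 := e0_sq_sub_one_pos hq hM
  have hx1 : e ^ 2 - 1 + 1 = e ^ 2 := by omega
  -- `e` is a unit mod `c0`
  have hene : (e : ZMod c0) ≠ 0 := by
    intro h
    rw [ZMod.natCast_eq_zero_iff] at h
    have : c0 ≤ e := Nat.le_of_dvd (by omega) h
    nlinarith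
  set j := orderOf ((e : ZMod c0) ^ 2) with hj
  -- `j ∣ (c0 - 1) / 2`
  have hc05 : 5 ≤ c0 := by nlinarith
  have hodd : c0 % 2 = 1 := by
    rcases hc0.eq_two_or_odd with h | h
    · omega
    · exact h
  have hhalf : 2 * ((c0 - 1) / 2) = c0 - 1 := by omega
  have hjdvd : j ∣ (c0 - 1) / 2 := by
    apply orderOf_dvd_of_pow_eq_one
    rw [← pow_mul, hhalf]
    exact ZMod.pow_card_sub_one_eq_one hene
  have hjM : j.Coprime M := by
    apply Nat.Coprime.coprime_dvd_left hjdvd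
    apply Nat.coprime_of_dvd
    intro ℓ hℓ h1 h2
    -- ℓ ∣ c0 - 1 and ℓ ∣ c0 + 1
    have h3 : ℓ ∣ c0 - 1 := by rw [← hhalf]; exact Dvd.dvd.mul_left h1 2
    have h4 : ℓ ∣ c0 + 1 := (h2.trans (dvd_pow_self M two_ne_zero)).trans hc0M
    have h5 : ℓ ∣ 2 := by
      have : c0 + 1 - (c0 - 1) = 2 := by omega
      rw [← this]
      exact Nat.dvd_sub h4 h3
    have h6 : ℓ = 2 := (Nat.prime_dvd_prime_iff_eq hℓ Nat.prime_two).1 h5
    subst h6
    have h7 : 4 ∣ c0 + 1 := by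
      have : (2 : ℕ) ^ 2 ∣ M ^ 2 := pow_dvd_pow_of_dvd h2 2
      exact (by norm_num : (4 : ℕ) = 2 ^ 2) ▸ this.trans hc0M
    obtain ⟨u, hu⟩ := h7
    obtain ⟨v, hv⟩ := h1
    omega
  -- the geometric sum
  have hgeom := geom_sum_mul_add (e ^ 2 - 1) j
  rw [hx1] at hgeom
  set S := ∑ i ∈ Finset.range j, (e ^ 2) ^ i with hS
  -- `S ≡ j mod M`
  have hSj : S ≡ j [MOD M] := by
    have h1 : ∀ i ∈ Finset.range j, (e ^ 2) ^ i ≡ 1 [MOD M] := by
      intro i _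
      have := ((e0_modEq_one hMq).pow 2).pow i
      simpa using this
    have h2 := Nat.ModEq.sum (s := Finset.range j) (f := fun i => (e ^ 2) ^ i) (g := fun _ => 1)
      (n := M) h1
    simpa using h2
  have hSM : S.Coprime M := by
    rw [Nat.Coprime, hSj.gcd_eq]; exact hjM
  -- `c0 ∣ S`
  have hc0S : c0 ∣ S := by
    have h1 : c0 ∣ S * (e ^ 2 - 1) := by
      rw [← ZMod.natCast_eq_zero_iff]
      have h2 := congrArg (Nat.cast : ℕ → ZMod c0) hgeom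
      push_cast at h2
      have h3 : ((e : ZMod c0) ^ 2) ^ j = 1 := pow_orderOf_eq_one _
      rw [h3] at h2
      push_cast
      linear_combination h2
    rcases (Nat.Prime.dvd_mul hc0).1 h1 with h | h
    · exact h
    · exfalso
      have := Nat.le_of_dvd hx0 h
      omega
  obtain ⟨S', hS'⟩ := hc0S
  refine ⟨Nat.totient M * j, R0 * S', ?_, ?_, ?_⟩
  · have := (e0_modEq_one hMq).pow j
    rw [one_pow] at this
    rw [pow_mul]
    exact this
  · rw [pow_mul, ← pow_mul, mul_comm j 2, pow_mul]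
    change (e ^ 2) ^ j = _
    rw [← hgeom, hR0, hS']
    ring
  · apply Nat.Coprime.mul_left hR0M
    exact Nat.Coprime.coprime_dvd_left (Dvd.intro_left c0 hS'.symm) hSM

end Fermat.Agent.S41.CSPNum46
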