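/-
S41 / C4 [CSP], file F2 (number theory of step (A3) of helper11's proof #3042): PACKAGING
(helper46).  From the "unit data" `UnitData q M a c` (= what the Dirichlet argument produces:
`s`, the unit `η = q ^ k ≡ 1 mod M`, `s2` with `η ^ 2 = 1 + c' * s2`, `c' = c + M s a`, and
`s2 * a` generating `ℤ[1/q] / M`) to the two shapes requested by the consumers of F2:

* `numA3_of_unitData`  : the accepted export shape of `numA3` (helper70);
* `goodShift_of_unitData` : the shape `exists_good_shift` (helper16).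
-/
import Fermat.Agent.S41.Ihara95.Core

set_option autoImplicit false

namespace Fermat.Agent.S41.CSPNum46

open Fermat.Agent.S41.Amalgam95 Fermat.Agent.S41.Ihara95

/-- the output of the Dirichlet argument of (A3), for the column `(a, c)`. -/
def UnitData (q M : ℕ) (a c : ℚ) : Prop :=
  ∃ (s s2 : ℚ) (k : ℕ), IsAway q s ∧ IsAway q s2 ∧ q ^ k ≡ 1 [MOD M] ∧
    ((q : ℚ) ^ k) ^ 2 = 1 + (c + M * s * a) * s2 ∧
    ∀ t : ℚ, IsAway q t → ∃ (n : ℕ) (r : ℚ), IsAway q r ∧ t = n * s2 * a + M * r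

lemma isAway_natCast46 (q M : ℕ) : IsAway q (M : ℚ) := by
  simpa using IsAway.of_int (q := q) (M : ℤ)

/-- binomial tail: `(1 + x) ^ n = 1 + n x + x ^ 2 ρ` with `ρ ∈ ℤ[1/q]`. -/
theorem exists_binom_tail {q : ℕ} {x : ℚ} (hx : IsAway q x) (n : ℕ) :
    ∃ ρ : ℚ, IsAway q ρ ∧ (1 + x) ^ n = 1 + n * x + x ^ 2 * ρ := by
  induction n with
  | zero => exact ⟨0, IsAway.zero, by simp⟩
  | succ n ih =>
    obtain ⟨ρ, hρ, h⟩ := ih
    refine ⟨ρ * (1 + x) + n, (hρ.mul (IsAway.one.add hx)).add (isAway_natCast46 q n), ?_⟩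
    rw [pow_succ, h]
    push_cast
    ring

theorem isCongZero_pow_sub_one {q M k : ℕ} (hk : q ^ k ≡ 1 [MOD M]) (n : ℕ) :
    IsCongZero q M ((q : ℚ) ^ (k * n) - 1) := by
  have h1 : q ^ (k * n) ≡ 1 [MOD M] := by
    have := hk.pow n
    rwa [one_pow, ← pow_mul] at this
  have h2 : (M : ℤ) ∣ ((q ^ (k * n) : ℕ) : ℤ) - ((1 : ℕ) : ℤ) :=
    (Nat.modEq_iff_dvd.1 h1.symm)
  have h3 := isCongZero_of_int_dvd q M _ h2
  push_cast at h3
  exact h3

/-- the accepted export shape of F2 (`numA3`), from the unit data. -/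
theorem numA3_of_unitData {q M : ℕ} {a c : ℚ} (ha : IsAway q a) (hc : IsCongZero q M c)
    (h : UnitData q M a c) :
    ∃ s : ℚ, IsAway q s ∧ ∀ t : ℚ, IsAway q t →
      ∃ (k : ℕ) (r : ℚ), IsCongZero q M ((q : ℚ) ^ k - 1) ∧ IsAway q r ∧
        ((q : ℚ) ^ k) ^ 2 * a = a + t * (c + M * s * a) + M * r * (c + M * s * a) := by
  obtain ⟨s, s2, k, hs, hs2, hk, hη, hex⟩ := h
  obtain ⟨c1, hc1, hcc1⟩ := hc
  refine ⟨s, hs, fun t ht => ?_⟩
  obtain ⟨n, r0, hr0, ht0⟩ := hex t ht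
  have hc' : IsAway q (c + M * s * a) := by
    rw [hcc1]
    exact ((isAway_natCast46 q M).mul hc1).add (((isAway_natCast46 q M).mul hs).mul ha)
  obtain ⟨ρ, hρ, hbin⟩ := exists_binom_tail (hc'.mul hs2) n
  refine ⟨k * n, -r0 + (c1 + s * a) * s2 ^ 2 * ρ * a, isCongZero_pow_sub_one hk n, ?_, ?_⟩
  · refine hr0.neg.add ((((hc1.add (hs.mul ha)).mul ?_).mul hρ).mul ha)
    rw [pow_two]; exact hs2.mul hs2
  · have h1 : ((q : ℚ) ^ (k * n)) ^ 2 = (1 + (c + M * s * a) * s2) ^ n := by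
      rw [← hη, ← pow_mul, ← pow_mul, ← pow_mul]
      ring_nf
    rw [h1, hbin, ht0, hcc1]
    ring

/-- the shape `exists_good_shift` requested by the StepA coder, from the unit data. -/
theorem goodShift_of_unitData {q M : ℕ} {a c : ℚ} (h : UnitData q M a c) :
    ∃ (s : ℚ) (n : ℕ) (s2 : ℚ), IsAway q s ∧ IsAway q s2 ∧ ((M : ℤ) ∣ (q : ℤ) ^ n - 1) ∧
      ((q : ℚ) ^ n) ^ 2 = 1 + (c + M * s * a) * s2 ∧
      ∀ t : ℚ, IsAway q t → ∃ i : ℕ, IsCongZero q M (t - i * s2 * a) := by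
  obtain ⟨s, s2, k, hs, hs2, hk, hη, hex⟩ := h
  refine ⟨s, k, s2, hs, hs2, ?_, hη, fun t ht => ?_⟩
  · have h2 : (M : ℤ) ∣ ((q ^ k : ℕ) : ℤ) - ((1 : ℕ) : ℤ) := Nat.modEq_iff_dvd.1 hk.symm
    push_cast at h2
    exact h2
  · obtain ⟨n, r, hr, htn⟩ := hex t ht
    exact ⟨n, r, hr, by rw [htn]; ring⟩

end Fermat.Agent.S41.CSPNum46
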