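/-
S41 / C4 [CSP], file F2 = number theory of step (A3) of helper11's proof #3042 (helper46).
The `ℤ[1/q]`-bookkeeping (vocabulary `IsAway`, `IsCongZero` of Amalgam95 / Ihara95) on top of the
integer core `NumCore.lean`, and the final exports:

* `exists_unit_data` : the unit data `UnitData q M a c` (see `Pack.lean`) of a unimodular column
  `(a, c)` with `a ≡ 1`, `c ≡ 0 mod M ℤ[1/q]`;
* `numA3`            : the accepted export shape of F2 (helper70 #3076);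
* `exists_good_shift`: the shape requested by the StepA coder (helper16 #3087).
-/
import Fermat.Agent.S41.CSPNum46.NumCore
import Fermat.Agent.S41.CSPNum46.Pack

set_option autoImplicit false

namespace Fermat.Agent.S41.CSPNum46

open Fermat.Agent.S41.Amalgam95 Fermat.Agent.S41.Ihara95

lemma isCoprime_of_lin_comb46 {x y A B Q : ℤ} (h : x * A + y * B = Q) (hxQ : IsCoprime x Q) :
    IsCoprime x y := by
  obtain ⟨u, v, huv⟩ := hxQ
  exact ⟨u + v * A, v * B, by rw [← huv, ← h]; ring⟩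

/-- every element of `ℤ[1/q]` is an integer mod `M ℤ[1/q]` (`q` is a unit mod `M`). -/
lemma exists_int_rep46 {q M : ℕ} (hMq : M.Coprime q) {t : ℚ} (ht : IsAway q t) :
    ∃ (n0 : ℤ) (r : ℚ), IsAway q r ∧ t = n0 + M * r := by
  obtain ⟨τ, m, hm⟩ := ht
  have hco : IsCoprime ((q : ℤ) ^ τ) (M : ℤ) := by
    apply IsCoprime.pow_left
    exact Nat.isCoprime_iff_coprime.2 hMq.symm
  obtain ⟨u, v, huv⟩ := hco
  refine ⟨u * m, v * t, (IsAway.of_int v).mul ⟨τ, m, hm⟩, ?_⟩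
  have h1 : (u : ℚ) * (q : ℚ) ^ τ + v * M = 1 := by exact_mod_cast huv
  push_cast
  rw [← hm]
  linear_combination (-t) * h1

/-- for `R` prime to `M`, every element of `ℤ[1/q]` is `n * R` mod `M ℤ[1/q]`, `n : ℕ`. -/
lemma exists_nat_mul_rep46 {q M R : ℕ} (hM : 0 < M) (hMq : M.Coprime q) (hR : R.Coprime M)
    {t : ℚ} (ht : IsAway q t) :
    ∃ (n : ℕ) (r : ℚ), IsAway q r ∧ t = n * R + M * r := by
  obtain ⟨n0, r0, hr0, ht0⟩ := exists_int_rep46 hMq ht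
  have : NeZero M := ⟨hM.ne'⟩
  have hRu : IsUnit ((R : ℕ) : ZMod M) := (ZMod.isUnit_iff_coprime R M).2 hR
  obtain ⟨uR, huR⟩ := hRu
  set x : ZMod M := (n0 : ZMod M) * ↑(uR⁻¹) with hx
  have h1 : ((x.val : ℕ) : ZMod M) * (R : ZMod M) = (n0 : ZMod M) := by
    rw [ZMod.natCast_zmod_val, hx, ← huR, mul_assoc, Units.inv_mul, mul_one]
  have h2 : (M : ℤ) ∣ n0 - (x.val : ℤ) * (R : ℤ) := by
    rw [← ZMod.intCast_zmod_eq_zero_iff_dvd]
    push_cast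
    rw [← h1]; ring
  obtain ⟨z, hz⟩ := h2
  refine ⟨x.val, r0 + z, hr0.add (IsAway.of_int z), ?_⟩
  have hz' : (n0 : ℚ) - (x.val : ℚ) * (R : ℚ) = (M : ℚ) * z := by exact_mod_cast hz
  rw [ht0]
  linear_combination hz'

/-- the prime-to-`q` part of a nonzero element of `ℤ[1/q]`. -/
lemma exists_primeTo_part46 {q : ℕ} (hq : q.Prime) {a : ℚ} (ha : IsAway q a) (ha0 : a ≠ 0) :
    ∃ (a0 : ℕ) (u u' : ℚ), 0 < a0 ∧ ¬ q ∣ a0 ∧ IsAway q u ∧ IsAway q u' ∧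
      (a0 : ℚ) = a * u ∧ a = a0 * u' := by
  obtain ⟨α, m, hm⟩ := ha
  have hq0 : (q : ℚ) ≠ 0 := by exact_mod_cast hq.ne_zero
  have hm0 : m ≠ 0 := by
    rintro rfl
    apply ha0
    have : a * (q : ℚ) ^ α = 0 := by simpa using hm
    rcases mul_eq_zero.1 this with h | h
    · exact h
    · exact absurd h (pow_ne_zero _ hq0)
  obtain ⟨v, a0, hqa0, hma⟩ :=
    Nat.exists_eq_pow_mul_and_not_dvd (Int.natAbs_ne_zero.2 hm0) q hq.ne_one
  have ha0pos : 0 < a0 := by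
    rcases Nat.eq_zero_or_pos a0 with h | h
    · exfalso; apply hqa0; rw [h]; exact dvd_zero q
    · exact h
  have hσ : (m.sign : ℤ) * m.sign = 1 := by
    rcases lt_or_gt_of_ne hm0 with h | h
    · simp [Int.sign_eq_neg_one_of_neg h]
    · simp [Int.sign_eq_one_of_pos h]
  have hσ' : ((m.sign : ℤ) : ℚ) * ((m.sign : ℤ) : ℚ) = 1 := by exact_mod_cast hσ
  have hmm : (m : ℚ) = (m.sign : ℤ) * ((q : ℚ) ^ v * a0) := by
    have h1 : m = m.sign * (m.natAbs : ℤ) := (Int.sign_mul_natAbs m).symm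
    rw [hma] at h1
    have h2 : (m : ℚ) = ((m.sign * ((q ^ v * a0 : ℕ) : ℤ) : ℤ) : ℚ) := by rw [← h1]
    rw [h2]; push_cast; ring
  refine ⟨a0, (m.sign : ℤ) * (q : ℚ) ^ α / (q : ℚ) ^ v, (m.sign : ℤ) * (q : ℚ) ^ v / (q : ℚ) ^ α,
    ha0pos, hqa0, ⟨v, m.sign * (q : ℤ) ^ α, ?_⟩, ⟨α, m.sign * (q : ℤ) ^ v, ?_⟩, ?_, ?_⟩
  · push_cast; field_simp
  · push_cast; field_simp
  · have ha' : a = (m : ℚ) / (q : ℚ) ^ α := by rw [← hm]; field_simp
    rw [ha', hmm]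
    field_simp
    linear_combination (-1 : ℚ) * hσ'
  · have ha' : a = (m : ℚ) / (q : ℚ) ^ α := by rw [← hm]; field_simp
    rw [ha', hmm]
    field_simp

/-- clearing denominators in `x0 * p1 + y0 * p2 * p3 = 1`. -/
lemma exists_int_lin_comb46 {q : ℕ} {x0 : ℤ} {p1 p2 p3 : ℚ} {β : ℕ} {γ : ℤ}
    (h1 : IsAway q p1) (h3 : IsAway q p3) (hγ : p2 * (q : ℚ) ^ β = γ) {y0 : ℤ}
    (h : (x0 : ℚ) * p1 + y0 * p2 * p3 = 1) :
    ∃ (A B : ℤ) (E : ℕ), x0 * A + γ * B = (q : ℤ) ^ E := by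
  obtain ⟨n1, m1, hm1⟩ := h1
  obtain ⟨n3, m3, hm3⟩ := h3
  refine ⟨m1 * (q : ℤ) ^ (β + n3), y0 * m3 * (q : ℤ) ^ n1, n1 + β + n3, ?_⟩
  apply Int.cast_injective (α := ℚ)
  push_cast
  rw [← hm1, ← hm3, ← hγ]
  linear_combination ((q : ℚ) ^ (n1 + β + n3)) * h

lemma isAway_div_pow46 {q : ℕ} (hq : q ≠ 0) {x : ℚ} (hx : IsAway q x) (β : ℕ) :
    IsAway q (x / (q : ℚ) ^ β) := by
  obtain ⟨n, m, hm⟩ := hx
  have hq' : (q : ℚ) ≠ 0 := by exact_mod_cast hq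
  refine ⟨n + β, m, ?_⟩
  rw [← hm, pow_add]
  field_simp

/-- **(a)+(b) of F2**: the unit data of the column `(a, c)`. -/
theorem exists_unit_data {q M : ℕ} (hq : q.Prime) (hM : 0 < M) (hMq : M.Coprime q) {a c : ℚ}
    (ha : IsAway q a) (ha1 : IsCongZero q M (a - 1)) (hc : IsCongZero q M c)
    (hcop : ∃ x y : ℚ, IsAway q x ∧ IsAway q y ∧ a * x + c * y = 1) :
    UnitData q M a c := by
  rcases Nat.eq_or_lt_of_le (Nat.one_le_iff_ne_zero.2 hM.ne') with hM1 | hM2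
  · -- `M = 1`: trivial
    subst hM1
    refine ⟨0, 0, 0, IsAway.zero, IsAway.zero, by simp [Nat.ModEq], by simp, fun t ht => ?_⟩
    exact ⟨0, t, ht, by simp⟩
  have hq0 : (q : ℚ) ≠ 0 := by exact_mod_cast hq.ne_zero
  have hM0 : (M : ℚ) ≠ 0 := by exact_mod_cast hM.ne'
  obtain ⟨a1, ha1A, haa1⟩ := ha1
  obtain ⟨c1, hc1A, hcc1⟩ := hc
  obtain ⟨x, y, hx, hy, hxy⟩ := hcop
  -- `a ≠ 0`
  have hane : a ≠ 0 := by
    intro h0
    rw [h0] at haa1
    obtain ⟨n, m, hm⟩ := ha1A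
    have h1 : (M : ℤ) * (-m) = (q : ℤ) ^ n := by
      apply Int.cast_injective (α := ℚ)
      push_cast
      rw [← hm]
      linear_combination ((q : ℚ) ^ n) * haa1
    have h2 : M ∣ q ^ n := by
      have : (M : ℤ) ∣ ((q ^ n : ℕ) : ℤ) := by push_cast; exact Dvd.intro _ h1
      exact Int.natCast_dvd_natCast.1 this
    have h3 : M = 1 := Nat.Coprime.eq_one_of_dvd (hMq.pow_right n) h2
    omega
  obtain ⟨a0, u, u', ha0pos, hqa0, hu, hu', ha0u, haa0⟩ := exists_primeTo_part46 hq ha hane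
  have ha0q : IsCoprime (a0 : ℤ) (q : ℤ) :=
    Nat.isCoprime_iff_coprime.2 ((Nat.Prime.coprime_iff_not_dvd hq).2 hqa0).symm
  -- (P2) `a0` is prime to `M`
  have hP2 : a0.Coprime M := by
    have h1' : ((M : ℤ) : ℚ) * (-a1) + ((1 : ℤ) : ℚ) * (a0 : ℚ) * u' = 1 := by
      push_cast
      rw [haa0] at haa1
      linear_combination haa1
    obtain ⟨A, B, E, hAB⟩ := exists_int_lin_comb46 (q := q) (x0 := (M : ℤ)) (p1 := -a1)
      (p2 := (a0 : ℚ)) (p3 := u') (β := 0) (γ := (a0 : ℤ)) ha1A.neg hu' (by simp) (y0 := 1) h1'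
    have h2 : IsCoprime (M : ℤ) (a0 : ℤ) := by
      have : IsCoprime (M : ℤ) ((q : ℤ) ^ E) :=
        IsCoprime.pow_right (Nat.isCoprime_iff_coprime.2 hMq)
      exact isCoprime_of_lin_comb46 hAB this
    exact (Nat.isCoprime_iff_coprime.1 h2).symm
  obtain ⟨β, γ, hγ⟩ := hc1A
  -- (P3) `a0` is prime to `γ`
  have hP3 : IsCoprime (a0 : ℤ) γ := by
    have h1' : ((a0 : ℤ) : ℚ) * (u' * x) + ((M : ℤ) : ℚ) * c1 * y = 1 := by
      push_cast
      rw [haa0, hcc1] at hxy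
      linear_combination hxy
    obtain ⟨A, B, E, hAB⟩ := exists_int_lin_comb46 (q := q) (x0 := (a0 : ℤ)) (p1 := u' * x)
      (p2 := c1) (p3 := y) (β := β) (γ := γ) (hu'.mul hx) hy hγ (y0 := (M : ℤ)) h1'
    exact isCoprime_of_lin_comb46 hAB (IsCoprime.pow_right ha0q)
  -- the level data
  obtain ⟨hML, hLprime, -⟩ := Lpart_spec hq hM hMq
  obtain ⟨L1, hL1⟩ := hML
  have hw : (L1 * q ^ β).Coprime a0 := by
    apply Nat.Coprime.mul_left
    · apply Nat.coprime_of_dvd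
      intro ℓ hℓ h1 h2
      have h3 : ℓ ∣ M := hLprime ℓ hℓ (hL1 ▸ Dvd.dvd.mul_left h1 M)
      have h4 : ℓ ∣ Nat.gcd a0 M := Nat.dvd_gcd h2 h3
      rw [hP2] at h4
      exact hℓ.one_lt.ne' (Nat.dvd_one.1 h4)
    · exact Nat.Coprime.pow_left β ((Nat.Prime.coprime_iff_not_dvd hq).2 hqa0)
  -- the class `κ`
  have : NeZero a0 := ⟨ha0pos.ne'⟩
  have hγu : IsUnit ((γ : ℤ) : ZMod a0) := (ZMod.coe_int_isUnit_iff_isCoprime γ a0).2 hP3
  obtain ⟨uw, huw⟩ := (ZMod.isUnit_iff_coprime (L1 * q ^ β) a0).2 hw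
  set xx : ZMod a0 := ((γ : ℤ) : ZMod a0) * ↑(uw⁻¹) with hxx
  have hxu : IsUnit xx := hγu.mul (uw⁻¹).isUnit
  have hκ : xx.val.Coprime a0 := by
    obtain ⟨ux, hux⟩ := hxu
    have := ZMod.val_coe_unit_coprime ux
    rwa [hux] at this
  obtain ⟨c0, hc0p, hc0big, hc0κ, hc0M⟩ := exists_prime_c0 hM ha0pos hP2 hκ (e0 q M ^ 2)
  obtain ⟨k, R, hk, hη, hRM⟩ := exists_eta hq hM hMq hc0p hc0big hc0M
  have hc0x : ((c0 : ℕ) : ZMod a0) = xx := by
    rw [(ZMod.natCast_eq_natCast_iff c0 xx.val a0).2 hc0κ, ZMod.natCast_zmod_val]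
  have hdiv : (a0 : ℤ) ∣ ((L1 * q ^ β : ℕ) : ℤ) * (c0 : ℤ) - γ := by
    rw [← ZMod.intCast_zmod_eq_zero_iff_dvd]
    push_cast
    have h5 : ((L1 : ZMod a0) * (q : ZMod a0) ^ β) = (uw : ZMod a0) := by
      rw [huw]; push_cast; rfl
    rw [h5, hc0x, hxx, mul_left_comm, Units.mul_inv, mul_one, sub_self]
  obtain ⟨z, hz⟩ := hdiv
  have hz' : (L1 : ℚ) * (q : ℚ) ^ β * c0 - γ = a0 * z := by exact_mod_cast hz
  have hLq : ((Lpart q M : ℕ) : ℚ) = M * L1 := by exact_mod_cast hL1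
  have hs : IsAway q (u * z / (q : ℚ) ^ β) :=
    isAway_div_pow46 hq.ne_zero (hu.mul (IsAway.of_int z)) β
  have key : c + M * (u * z / (q : ℚ) ^ β) * a = (Lpart q M : ℚ) * c0 := by
    have hqβ : (q : ℚ) ^ β ≠ 0 := pow_ne_zero _ hq0
    apply mul_right_cancel₀ hqβ
    rw [hcc1, hLq]
    have hdiv' : u * z / (q : ℚ) ^ β * (q : ℚ) ^ β = u * z := div_mul_cancel₀ _ hqβ
    linear_combination (M : ℚ) * hγ + (M : ℚ) * (z : ℚ) * ha0u.symm + (M : ℚ) * hz'.symm +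
      ((M : ℚ) * a) * hdiv'
  refine ⟨u * z / (q : ℚ) ^ β, R, k, hs, isAway_natCast46 q R, hk, ?_, fun t ht => ?_⟩
  · rw [key]
    exact_mod_cast hη
  · obtain ⟨n, r, hr, htn⟩ := exists_nat_mul_rep46 hM hMq hRM ht
    refine ⟨n, r - n * R * a1,
      hr.sub (((isAway_natCast46 q n).mul (isAway_natCast46 q R)).mul ha1A), ?_⟩
    rw [htn]
    linear_combination (-(n : ℚ) * R) * haa1

/-- **F2, accepted export shape** (`numA3`, helper70 #3076): for a unimodular column `(a, c)` of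
`Γ(M)[1/q]` there is `s ∈ ℤ[1/q]` such that, with `c' = c + M s a` (the lower left entry of
`l(M s) g`), for every `t ∈ ℤ[1/q]` there are a unit `e = q ^ k ≡ 1 mod M` and `r ∈ ℤ[1/q]` with
`e ^ 2 * a = (a + t c') + M r c'`. -/
theorem numA3 {q M : ℕ} (hq : q.Prime) (hM : 0 < M) (hMq : M.Coprime q) {a c : ℚ}
    (ha : IsAway q a) (ha1 : IsCongZero q M (a - 1)) (hc : IsCongZero q M c)
    (hcop : ∃ x y : ℚ, IsAway q x ∧ IsAway q y ∧ a * x + c * y = 1) :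
    ∃ s : ℚ, IsAway q s ∧ ∀ t : ℚ, IsAway q t →
      ∃ (k : ℕ) (r : ℚ), IsCongZero q M ((q : ℚ) ^ k - 1) ∧ IsAway q r ∧
        ((q : ℚ) ^ k) ^ 2 * a = a + t * (c + M * s * a) + M * r * (c + M * s * a) :=
  numA3_of_unitData ha hc (exists_unit_data hq hM hMq ha ha1 hc hcop)

/-- **F2, the shape requested by the StepA coder** (`exists_good_shift`, helper16 #3087). -/
theorem exists_good_shift (q M : ℕ) [Fact q.Prime] (hM : 0 < M) (hMq : M.Coprime q) (a c : ℚ)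
    (ha : IsCongZero q M (a - 1)) (hc : IsCongZero q M c)
    (hac : ∃ x y : ℚ, IsAway q x ∧ IsAway q y ∧ a * x + c * y = 1) :
    ∃ (s : ℚ) (n : ℕ) (s2 : ℚ), IsAway q s ∧ IsAway q s2 ∧ ((M : ℤ) ∣ (q : ℤ) ^ n - 1) ∧
      ((q : ℚ) ^ n) ^ 2 = 1 + (c + M * s * a) * s2 ∧
      ∀ t : ℚ, IsAway q t → ∃ i : ℕ, IsCongZero q M (t - i * s2 * a) := by
  have haA : IsAway q a := by
    obtain ⟨r, hr, h⟩ := ha
    have : a = 1 + M * r := by linear_combination h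
    rw [this]
    exact IsAway.one.add ((isAway_natCast46 q M).mul hr)
  exact goodShift_of_unitData (exists_unit_data (Fact.out) hM hMq haA ha hc hac)

end Fermat.Agent.S41.CSPNum46
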